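/-
Shared library (owner helper208), block DER: the derivation `θ = t d/dt` of Laurent series over any
commutative ring, and its compatibility with `coeffMap`, `qExpand`, `twist`.
-/
import Mathlib
import Fermat.Prelude.Def_ModularCurve_X0
import Fermat.Prelude.Def_ModularCurve_LaurentCoeff
import Fermat.Agent.S24.B.Laurent

set_option autoImplicit false

noncomputable section

namespace Fermat.Agent.Lib.Theta

open ModularCurve

variable {R : Type*} [CommRing R]

/-- `θ f = ∑ n a_n t^n` -/
def thetaFun (f : LaurentSeries R) : LaurentSeries R where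
  coeff n := (n : R) * f.coeff n
  isPWO_support' := f.isPWO_support.mono (by
    intro n hn
    simp only [Function.mem_support, ne_eq] at hn
    exact fun h => hn (by rw [h, mul_zero]))

@[simp] theorem thetaFun_coeff (f : LaurentSeries R) (n : ℤ) :
    (thetaFun f).coeff n = (n : R) * f.coeff n := rfl

theorem support_thetaFun_subset (f : LaurentSeries R) : (thetaFun f).support ⊆ f.support := by
  intro n hn
  rw [HahnSeries.mem_support, thetaFun_coeff] at hn
  exact fun h => hn (by rw [h, mul_zero])

theorem thetaFun_mul (f g : LaurentSeries R) :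
    thetaFun (f * g) = f * thetaFun g + g * thetaFun f := by
  ext n
  rw [thetaFun_coeff, HahnSeries.coeff_add, HahnSeries.coeff_mul, mul_comm g,
    HahnSeries.coeff_mul_right' g.isPWO_support (support_thetaFun_subset g),
    HahnSeries.coeff_mul_left' f.isPWO_support (support_thetaFun_subset f), Finset.mul_sum,
    ← Finset.sum_add_distrib]
  refine Finset.sum_congr rfl fun ij hij => ?_
  rw [Finset.mem_antidiagonal] at hij
  rw [thetaFun_coeff, thetaFun_coeff, ← hij.2.2]
  push_cast
  ring

theorem thetaFun_add (f g : LaurentSeries R) : thetaFun (f + g) = thetaFun f + thetaFun g := by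
  ext n
  simp only [thetaFun_coeff, HahnSeries.coeff_add, mul_add]

theorem thetaFun_C (c : R) : thetaFun (HahnSeries.C c) = 0 := by
  ext n
  rw [thetaFun_coeff, HahnSeries.C_apply, HahnSeries.coeff_single, HahnSeries.coeff_zero]
  split_ifs with h
  · rw [h, Int.cast_zero, zero_mul]
  · rw [mul_zero]

theorem algebraMap_eq_C (c : R) : algebraMap R (LaurentSeries R) c = HahnSeries.C c := by
  have h1 : algebraMap R (PowerSeries R) c = PowerSeries.C c := by
    simp
  rw [HahnSeries.algebraMap_apply', h1, HahnSeries.ofPowerSeries_C]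

theorem thetaFun_algebraMap_mul (c : R) (f : LaurentSeries R) :
    thetaFun (algebraMap R (LaurentSeries R) c * f) =
      algebraMap R (LaurentSeries R) c * thetaFun f := by
  rw [thetaFun_mul, algebraMap_eq_C, thetaFun_C, mul_zero, add_zero]

/-- **`θ = t d/dt`** as a derivation of `R((t))`. -/
def theta : Derivation R (LaurentSeries R) (LaurentSeries R) where
  toFun := thetaFun
  map_add' := thetaFun_add
  map_smul' := fun c f => by
    rw [RingHom.id_apply, Algebra.smul_def, thetaFun_algebraMap_mul, algebraMap_eq_C,
      HahnSeries.C_mul_eq_smul]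
  map_one_eq_zero' := by
    show thetaFun 1 = 0
    rw [← map_one (HahnSeries.C : R →+* LaurentSeries R)]
    exact thetaFun_C 1
  leibniz' := fun f g => by
    show thetaFun (f * g) = f • thetaFun g + g • thetaFun f
    rw [smul_eq_mul, smul_eq_mul]
    exact thetaFun_mul f g

@[simp] theorem theta_coeff (f : LaurentSeries R) (n : ℤ) :
    (theta f).coeff n = (n : R) * f.coeff n := rfl

theorem theta_single (n : ℤ) (r : R) :
    theta (HahnSeries.single n r) = HahnSeries.single n ((n : R) * r) := by
  ext k
  rw [theta_coeff, HahnSeries.coeff_single, HahnSeries.coeff_single]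
  split_ifs with h
  · rw [h]
  · rw [mul_zero]

theorem theta_coeffMap {S : Type*} [CommRing S] (φ : R →+* S) (f : LaurentSeries R) :
    theta (coeffMap φ f) = coeffMap φ (theta f) := by
  ext n
  rw [theta_coeff, coeffMap_coeff, coeffMap_coeff, theta_coeff, map_mul, map_intCast]

/-- `θ (f(t^d)) = d (θ f)(t^d)` -/
theorem theta_qExpand (d : ℕ) [NeZero d] (f : LaurentSeries R) :
    theta (qExpand R d f) = (d : LaurentSeries R) * qExpand R d (theta f) := by
  have hd : (d : LaurentSeries R) = HahnSeries.C (d : R) := (map_natCast HahnSeries.C d).symm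
  ext n
  rw [theta_coeff, hd, HahnSeries.C_mul_eq_smul, HahnSeries.coeff_smul, smul_eq_mul]
  by_cases hn : (d : ℤ) ∣ n
  · obtain ⟨m, rfl⟩ := hn
    rw [qExpand_coeff_mul, qExpand_coeff_mul, theta_coeff]
    push_cast
    ring
  · rw [qExpand_coeff_of_not_dvd d _ hn, qExpand_coeff_of_not_dvd d _ hn, mul_zero, mul_zero]

/-- `θ (f(ζ t)) = (θ f)(ζ t)` -/
theorem theta_twist {C : Type*} [Field C] (ζ : Cˣ) (f : LaurentSeries C) :
    theta (S24.B.twist ζ f) = S24.B.twist ζ (theta f) := by
  ext n
  rw [theta_coeff, S24.B.twist_coeff, S24.B.twist_coeff, theta_coeff]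
  ring

theorem theta_algebraMap (c : R) : theta (algebraMap R (LaurentSeries R) c) = 0 :=
  theta.map_algebraMap c

/-- in characteristic zero the kernel of `θ` consists of the constants -/
theorem theta_eq_zero_iff {K : Type*} [Field K] [CharZero K] (f : LaurentSeries K) :
    theta f = 0 ↔ f = HahnSeries.C (f.coeff 0) := by
  constructor
  · intro h
    ext n
    have hn := congrArg (fun g : LaurentSeries K => g.coeff n) h
    simp only [theta_coeff, HahnSeries.coeff_zero, mul_eq_zero, Int.cast_eq_zero] at hn
    rw [HahnSeries.C_apply, HahnSeries.coeff_single]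
    split_ifs with h0
    · rw [h0]
    · exact hn.resolve_left h0
  · intro h
    rw [h, HahnSeries.C_apply, theta_single, Int.cast_zero, zero_mul, HahnSeries.single_eq_zero]

/-- the leading coefficient of `θ f` -/
theorem theta_ne_zero_of_coeff {n : ℤ} {f : LaurentSeries R} (h : (n : R) * f.coeff n ≠ 0) :
    theta f ≠ 0 := by
  intro h0
  apply h
  rw [← theta_coeff, h0, HahnSeries.coeff_zero]

end Fermat.Agent.Lib.Theta

end
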