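/-
Shared library (owner helper208), block DER: the derivation `d/dx` of a function field in one
variable `F / K` (characteristic zero, `x` transcendental, `F / K(x)` finite) and the chain rule
for arbitrary derivations along arbitrary embeddings.
-/
import Mathlib
import Fermat.Agent.S24.Diff.Kaehler

set_option autoImplicit false
set_option linter.style.haveILetI false

noncomputable section

namespace Fermat.Agent.Lib.Theta

open IntermediateField KaehlerDifferential Fermat.Agent.S24.Diff

variable {K F : Type*} [Field K] [Field F] [Algebra K F]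

/-- a linear form on `Ω[F⁄K]` taking the value `1` at `d x` (if `d x ≠ 0`) -/
theorem exists_dual_D (x : F) (h : D K F x ≠ 0) : ∃ φ : Ω[F⁄K] →ₗ[F] F, φ (D K F x) = 1 := by
  obtain ⟨φ, hφ⟩ : ∃ φ : Module.Dual F Ω[F⁄K], φ (D K F x) ≠ 0 := by
    by_contra hcon
    push Not at hcon
    exact h ((Module.forall_dual_apply_eq_zero_iff F _).1 hcon)
  exact ⟨(φ (D K F x))⁻¹ • φ, by
    rw [LinearMap.smul_apply, smul_eq_mul, inv_mul_cancel₀ hφ]⟩

open Classical in
/-- **`d/dx`** (junk value `0` if `d x = 0`). -/
def dd (K : Type*) {F : Type*} [Field K] [Field F] [Algebra K F] (x : F) : Derivation K F F :=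
  if h : D K F x ≠ 0 then (exists_dual_D x h).choose.compDer (D K F) else 0

theorem dd_self_of_ne (x : F) (h : D K F x ≠ 0) : dd K x x = 1 := by
  rw [dd, dif_pos h]
  exact (exists_dual_D x h).choose_spec

section Main

variable [CharZero K] (x : F) (hx : Transcendental K x) [FiniteDimensional K⟮x⟯ F]

include hx

theorem dd_self : dd K x x = 1 := dd_self_of_ne x (D_ne_zero x hx)

/-- `d f = (df/dx) d x` in `Ω[F⁄K]` -/
theorem D_eq_dd_smul (f : F) : D K F f = dd K x f • D K F x := by
  have hf : D K F f ∈ Submodule.span F {D K F x} := by rw [span_D x hx]; trivial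
  obtain ⟨c, hc⟩ := Submodule.mem_span_singleton.mp hf
  have h : D K F x ≠ 0 := D_ne_zero x hx
  have h1 : dd K x f = c := by
    rw [dd, dif_pos h]
    show (exists_dual_D x h).choose (D K F f) = c
    rw [← hc, map_smul, (exists_dual_D x h).choose_spec, smul_eq_mul, mul_one]
  rw [h1, hc]

/-- **Chain rule** for a derivation with values in an `F`-module. -/
theorem derivation_eq_dd_smul {M : Type*} [AddCommGroup M] [Module K M] [Module F M]
    [IsScalarTower K F M] (d : Derivation K F M) (f : F) : d f = dd K x f • d x := by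
  rw [← d.liftKaehlerDifferential_comp_D f, D_eq_dd_smul x hx f, map_smul,
    d.liftKaehlerDifferential_comp_D]

/-- **Chain rule along an embedding** `e : F → E` for an additive Leibniz map `δ` of `E` killing the
constants: `δ (e f) = e (df/dx) δ (e x)`. -/
theorem chain_rule {E : Type*} [CommRing E] (e : F →+* E) (δ : Derivation ℤ E E)
    (hδ : ∀ c : K, δ (e (algebraMap K F c)) = 0) (f : F) :
    δ (e f) = e (dd K x f) * δ (e x) := by
  letI : Algebra F E := e.toAlgebra
  letI : Algebra K E := (e.comp (algebraMap K F)).toAlgebra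
  haveI : IsScalarTower K F E := IsScalarTower.of_algebraMap_eq fun _ => rfl
  let d : Derivation K F E :=
    { toFun := fun f => δ (e f)
      map_add' := fun a b => by rw [map_add, map_add]
      map_smul' := fun c a => by
        rw [RingHom.id_apply, Algebra.smul_def, map_mul, δ.leibniz, hδ, smul_zero, add_zero,
          smul_eq_mul, Algebra.smul_def]
        rfl
      map_one_eq_zero' := by
        show δ (e 1) = 0
        rw [map_one, δ.map_one_eq_zero]
      leibniz' := fun a b => by
        show δ (e (a * b)) = a • δ (e b) + b • δ (e a)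
        rw [map_mul, δ.leibniz, smul_eq_mul, smul_eq_mul, Algebra.smul_def, Algebra.smul_def]
        rfl }
  have h := derivation_eq_dd_smul x hx d f
  rw [Algebra.smul_def] at h
  exact h

/-- uniqueness of `d/dx` -/
theorem eq_dd (d : Derivation K F F) (h : d x = 1) : d = dd K x := by
  ext f
  rw [derivation_eq_dd_smul x hx d f, h, smul_eq_mul, mul_one]

/-- `df/dy = (df/dx) (dx/dy)` -/
theorem dd_mul_dd (y f : F) : dd K y f = dd K x f * dd K y x := by
  rw [derivation_eq_dd_smul x hx (dd K y) f, smul_eq_mul]

end Main

/-- `(dx/dy) (dy/dx) = 1` -/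
theorem dd_mul_dd_self [CharZero K] {x y : F} (hx : Transcendental K x)
    (hy : Transcendental K y) [FiniteDimensional K⟮x⟯ F] [FiniteDimensional K⟮y⟯ F] :
    dd K x y * dd K y x = 1 := by
  rw [← dd_mul_dd x hx y y, dd_self y hy]

/-- transport by an embedding of function fields over `K`: `σ (df/dx) = d(σ f)/d(σ x)`. -/
theorem map_dd [CharZero K] {F' : Type*} [Field F'] [Algebra K F'] (σ : F →ₐ[K] F') {x : F}
    (hx : Transcendental K x) [FiniteDimensional K⟮x⟯ F] [FiniteDimensional K⟮σ x⟯ F'] (f : F) :
    σ (dd K x f) = dd K (σ x) (σ f) := by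
  have hx' : Transcendental K (σ x) := fun h => hx ((isAlgebraic_algHom_iff σ σ.injective).1 h)
  have h := chain_rule x hx σ.toRingHom ((dd K (σ x)).restrictScalars ℤ)
    (fun c => by
      show dd K (σ x) (σ (algebraMap K F c)) = 0
      rw [σ.commutes, Derivation.map_algebraMap]) f
  have h2 : dd K (σ x) (σ f) = σ (dd K x f) * dd K (σ x) (σ x) := h
  rw [h2, dd_self _ hx', mul_one]

end Fermat.Agent.Lib.Theta

end
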