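/-
Shared library (owner helper208), block DER: `d/dx` preserves the local ring of a place at which
`x - c` is a uniformiser.
-/
import Mathlib
import Fermat.Agent.Lib.Theta.DD
import Fermat.Agent.S24.Diff.Local

set_option autoImplicit false
set_option linter.style.haveILetI false

noncomputable section

namespace Fermat.Agent.Lib.Theta

open IntermediateField KaehlerDifferential Fermat.Agent.S24.Diff Fermat.Agent.S24.FF AlgebraicCurve

variable {K F : Type*} [Field K] [Field F] [Algebra K F] [IsAlgClosed K] [CharZero K] [IsFF1 K F]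

/-- if `x - c` has order `e ≠ 0` at `v` and `u` is regular at `v`, then `du/dx = g / f` with `g`
regular and `f` of order `e - 1`. -/
theorem exists_dd_eq_div (x : F) (hx : Transcendental K x) [FiniteDimensional K⟮x⟯ F]
    (v : Place K F) (c : K) (h : v.ord (x - algebraMap K F c) ≠ 0) {u : F}
    (hu : u ∈ v.toValuationSubring) :
    ∃ g f : F, g ∈ v.toValuationSubring ∧ f ≠ 0 ∧ v.ord f = v.ord (x - algebraMap K F c) - 1 ∧
      dd K x u = g / f := by
  obtain ⟨π, hπ⟩ := IsDiscreteValuationRing.exists_irreducible v.toValuationSubring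
  obtain ⟨f, hf, hf0, hford⟩ := exists_D_eq_smul_of_ord_ne_zero v hπ h
  obtain ⟨g, hg⟩ := exists_D_eq_smul v hπ ⟨u, hu⟩
  refine ⟨g, f, g.2, hf0, hford, ?_⟩
  rw [map_sub, Derivation.map_algebraMap, sub_zero] at hf
  have h1 : D K F u = ((g : F) / f) • D K F x := by
    rw [hf, smul_smul, div_mul_cancel₀ _ hf0]
    exact hg
  have h2 := D_eq_dd_smul x hx u
  rw [h1] at h2
  have h3 : ((g : F) / f - dd K x u) • D K F x = 0 := by rw [sub_smul, h2, sub_self]
  rcases smul_eq_zero.1 h3 with h4 | h4
  · exact (sub_eq_zero.1 h4).symm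
  · exact absurd h4 (D_ne_zero x hx)

/-- **`d/dx` preserves `O_v` if `x - c` is a uniformiser at `v`.** -/
theorem dd_mem_place (x : F) (hx : Transcendental K x) [FiniteDimensional K⟮x⟯ F]
    (v : Place K F) (c : K) (h : v.ord (x - algebraMap K F c) = 1) {u : F}
    (hu : u ∈ v.toValuationSubring) : dd K x u ∈ v.toValuationSubring := by
  obtain ⟨g, f, hg, hf0, hford, he⟩ := exists_dd_eq_div x hx v c (by rw [h]; exact one_ne_zero) hu
  rw [he]
  rcases eq_or_ne g 0 with rfl | hg0
  · rw [zero_div]; exact v.toValuationSubring.zero_mem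
  · apply mem_of_ord_nonneg
    rw [div_eq_mul_inv, v.ord_mul hg0 (inv_ne_zero hf0), v.ord_inv, hford, h]
    have := ord_nonneg_of_mem v hg
    omega

end Fermat.Agent.Lib.Theta

end
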